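/-
GATE-P / S56 [P-GW] leaf S56-GW-EQUNITS (helper41), file E3.

**Rational descent of a real lattice embedding** (a coordinate form of Noether–Deuring).

`L` a free `ℤ`-module of rank `#ι`, `Φ : L →+ (ι → ℝ)` additive whose image spans `ι → ℝ` over `ℝ`.
Then there is a `ℚ`-linear functional `ℓ : ℝ →ₗ[ℚ] ℚ` such that `x ↦ (ℓ (Φ x i))_i : L → (ι → ℚ)`
is INJECTIVE.  Since `ℓ` is applied coordinatewise, every symmetry of `Φ` that permutes the
coordinates `ι` (or acts on them by rational matrices) is inherited by the rational map.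

Mathlib only.
-/
import Mathlib

set_option autoImplicit false

open Module Matrix

namespace Fermat.Agent.GP.GW.EqUnits

variable {ι : Type*} [Fintype ι] [DecidableEq ι]

/-- A nonzero polynomial over `ℚ` has a rational non-root. -/
theorem exists_eval_ne_zero {m : ℕ} {P : MvPolynomial (Fin m) ℚ} (hP : P ≠ 0) :
    ∃ q : Fin m → ℚ, MvPolynomial.eval q P ≠ 0 := by
  by_contra h
  have h : ∀ q : Fin m → ℚ, MvPolynomial.eval q P = 0 := fun q => by
    by_contra hq
    exact h ⟨q, hq⟩
  apply hP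
  apply MvPolynomial.funext
  intro x
  rw [h x, map_zero]

/-- **Determinant descent**: a square real matrix with nonzero determinant whose entries lie in a
finite-dimensional `ℚ`-subspace `E ⊂ ℝ` is sent to a rational matrix with nonzero determinant by
some `ℚ`-linear functional of `E`. -/
theorem exists_functional_det_ne_zero (E : Submodule ℚ ℝ) [FiniteDimensional ℚ E]
    (M : Matrix ι ι ℝ) (hM : ∀ i j, M i j ∈ E) (hdet : M.det ≠ 0) :
    ∃ ℓ : E →ₗ[ℚ] ℚ, (Matrix.of fun i j => ℓ ⟨M i j, hM i j⟩).det ≠ 0 := by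
  classical
  set m := finrank ℚ E with hm
  let b : Basis (Fin m) ℚ E := Module.finBasis ℚ E
  -- coordinates
  let c : Fin m → ι → ι → ℚ := fun k i j => b.repr ⟨M i j, hM i j⟩ k
  have hMc : ∀ i j, M i j = ∑ k, (c k i j : ℝ) * ((b k : E) : ℝ) := by
    intro i j
    have h1 := b.sum_repr ⟨M i j, hM i j⟩
    have h2 := congrArg (fun e : E => (e : ℝ)) h1
    simp only [Submodule.coe_sum, Submodule.coe_smul] at h2
    rw [← h2]
    refine Finset.sum_congr rfl fun k _ => ?_
    simp [c, Rat.smul_def]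
  -- the polynomial
  let PM : Matrix ι ι (MvPolynomial (Fin m) ℚ) :=
    Matrix.of fun i j => ∑ k, MvPolynomial.C (c k i j) * MvPolynomial.X k
  have hP : PM.det ≠ 0 := by
    intro h0
    apply hdet
    have h1 : (MvPolynomial.aeval (fun k => ((b k : E) : ℝ))) PM.det = 0 := by
      rw [h0, map_zero]
    rw [AlgHom.map_det] at h1
    rw [← h1]
    congr 1
    ext i j
    simp only [AlgHom.mapMatrix_apply, Matrix.map_apply, PM, Matrix.of_apply, map_sum, map_mul,
      MvPolynomial.aeval_C, MvPolynomial.aeval_X]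
    rw [hMc i j]
    rfl
  obtain ⟨q, hq⟩ := exists_eval_ne_zero hP
  refine ⟨∑ k, q k • b.coord k, ?_⟩
  rw [RingHom.map_det] at hq
  convert hq using 2
  ext i j
  simp only [Matrix.of_apply, RingHom.mapMatrix_apply, Matrix.map_apply, PM, map_sum, map_mul,
    MvPolynomial.eval_C, MvPolynomial.eval_X, c]
  rw [LinearMap.sum_apply]
  refine Finset.sum_congr rfl fun k _ => ?_
  rw [LinearMap.smul_apply, Basis.coord_apply, smul_eq_mul, mul_comm]

/-- **Rational descent of a real lattice embedding.**  `L` free of rank `#ι` over `ℤ`,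
`Φ : L →+ (ι → ℝ)` with `ℝ`-spanning image.  Some `ℚ`-linear functional `ℓ` of `ℝ`, applied
coordinatewise, gives an injective map `L → (ι → ℚ)`. -/
theorem exists_rat_functional_injective {L : Type*} [AddCommGroup L] [Module.Free ℤ L]
    [Module.Finite ℤ L] (Φ : L →+ (ι → ℝ)) (hrank : finrank ℤ L = Fintype.card ι)
    (hspan : Submodule.span ℝ (Set.range Φ) = ⊤) :
    ∃ ℓ : ℝ →ₗ[ℚ] ℚ, Function.Injective (fun (x : L) (i : ι) => ℓ (Φ x i)) := by
  classical
  let u := Module.Free.chooseBasis ℤ L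
  have hcard : Fintype.card (Module.Free.ChooseBasisIndex ℤ L) = Fintype.card ι := by
    rw [← hrank, Module.finrank_eq_card_chooseBasisIndex]
  let e : Module.Free.ChooseBasisIndex ℤ L ≃ ι := Fintype.equivOfCardEq hcard
  let v : ι → (ι → ℝ) := fun i₂ => Φ (u (e.symm i₂))
  -- expansion of `Φ x` in the `v`
  have hexp : ∀ x : L, Φ x = ∑ j, ((u.repr x j : ℤ) : ℝ) • Φ (u j) := by
    intro x
    conv_lhs => rw [← u.sum_repr x]
    rw [map_sum]
    refine Finset.sum_congr rfl fun j _ => ?_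
    rw [map_zsmul, ← Int.cast_smul_eq_zsmul ℝ]
  have hv : ⊤ ≤ Submodule.span ℝ (Set.range v) := by
    rw [← hspan, Submodule.span_le]
    rintro _ ⟨x, rfl⟩
    rw [hexp x]
    refine Submodule.sum_mem _ fun j _ => Submodule.smul_mem _ _ (Submodule.subset_span ⟨e j, ?_⟩)
    simp [v]
  have hli : LinearIndependent ℝ v :=
    linearIndependent_of_top_le_span_of_card_eq_finrank hv
      (by rw [Module.finrank_fintype_fun_eq_card])
  have hunit : IsUnit ((Pi.basisFun ℝ ι).det v) :=
    (Pi.basisFun ℝ ι).is_basis_iff_det.1 ⟨hli, top_le_iff.1 hv⟩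
  let M : Matrix ι ι ℝ := Matrix.of fun i i₂ => v i₂ i
  have hMdet : M.det ≠ 0 := by
    have h1 : (Pi.basisFun ℝ ι).det v = M.det := by
      rw [Basis.det_apply]
      congr 1
    rw [← h1]
    exact hunit.ne_zero
  -- the finite-dimensional `ℚ`-space of entries
  let E : Submodule ℚ ℝ := Submodule.span ℚ (Set.range fun p : ι × ι => M p.1 p.2)
  have : FiniteDimensional ℚ E := FiniteDimensional.span_of_finite ℚ (Set.finite_range _)
  have hME : ∀ i j, M i j ∈ E := fun i j => Submodule.subset_span ⟨(i, j), rfl⟩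
  obtain ⟨ℓE, hℓE⟩ := exists_functional_det_ne_zero E M hME hMdet
  obtain ⟨ℓ, hℓ⟩ := LinearMap.exists_extend ℓE
  refine ⟨ℓ, ?_⟩
  have hℓM : ∀ i j, ℓ (M i j) = ℓE ⟨M i j, hME i j⟩ := by
    intro i j
    rw [← hℓ]
    rfl
  -- additivity
  have hadd : ∀ x y : L, (fun i => ℓ (Φ (x - y) i)) = fun i => ℓ (Φ x i) - ℓ (Φ y i) := by
    intro x y
    funext i
    rw [map_sub, Pi.sub_apply, map_sub]
  intro x y hxy
  rw [← sub_eq_zero]
  set z := x - y with hz
  have hFz : ∀ i, ℓ (Φ z i) = 0 := by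
    intro i
    have h1 := congrFun (hadd x y) i
    have h2 : ℓ (Φ x i) = ℓ (Φ y i) := congrFun hxy i
    rw [hz, h1, h2, sub_self]
  -- coordinates of `z`
  let n' : ι → ℚ := fun i₂ => ((u.repr z (e.symm i₂) : ℤ) : ℚ)
  have hmul : (Matrix.of fun i j => ℓE ⟨M i j, hME i j⟩) *ᵥ n' = 0 := by
    funext i
    rw [Pi.zero_apply, ← hFz i, hexp z]
    simp only [Matrix.mulVec, dotProduct, Matrix.of_apply, Finset.sum_apply, Pi.smul_apply,
      smul_eq_mul, map_sum]
    rw [← Equiv.sum_comp e]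
    refine Finset.sum_congr rfl fun j _ => ?_
    rw [← hℓM]
    simp only [n', M, v, Matrix.of_apply, Equiv.symm_apply_apply]
    rw [mul_comm, show (((u.repr z j : ℤ) : ℝ) * Φ (u j) i) =
      ((u.repr z j : ℤ) : ℚ) • (Φ (u j) i) by rw [Rat.smul_def]; push_cast; rfl,
      map_smul, smul_eq_mul]
  have hn' : n' = 0 := Matrix.eq_zero_of_mulVec_eq_zero hℓE hmul
  apply u.repr.injective
  ext j
  have := congrFun hn' (e j)
  simp only [n', Equiv.symm_apply_apply, Pi.zero_apply, Int.cast_eq_zero] at this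
  simpa using this

end Fermat.Agent.GP.GW.EqUnits
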