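/-
GATE-P / S56 [P-GW] leaf S56-GW-EQUNITS (helper41), file E1.

The FULL logarithmic map of the unit group of a number field,
`logFull K : Additive (𝓞 K)ˣ →+ (InfinitePlace K → ℝ)`, `x ↦ (mult w * log (w x))_w`
(Mathlib's `logEmbedding` drops the distinguished place `w₀`, which breaks Galois equivariance):

* `logFull_eq_zero_iff` : kernel = torsion;
* `sum_logFull` : the image lies in the hyperplane `Σ = 0`;
* `span_range_logFull` : the real span of the image IS the hyperplane (Dirichlet);
* `logFull_unitMap` : equivariance under `σ : K ≃ₐ[k] K` (any base field `k`),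
  `logFull (σ u) w = logFull u (σ⁻¹ • w)`.

Mathlib only.
-/
import Mathlib

set_option autoImplicit false
set_option linter.unusedSectionVars false

open NumberField NumberField.InfinitePlace NumberField.Units
open NumberField.Units.dirichletUnitTheorem

namespace Fermat.Agent.GP.GW.EqUnits

variable (K : Type*) [Field K] [NumberField K]

/-- The full logarithmic map of the units. -/
noncomputable def logFull : Additive (𝓞 K)ˣ →+ (InfinitePlace K → ℝ) where
  toFun x w := mult w * Real.log (w ((Additive.toMul x : (𝓞 K)ˣ) : K))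
  map_zero' := by
    funext w
    simp
  map_add' x y := by
    funext w
    have hx : w ((Additive.toMul x : (𝓞 K)ˣ) : K) ≠ 0 := (pos_at_place _ w).ne'
    have hy : w ((Additive.toMul y : (𝓞 K)ˣ) : K) ≠ 0 := (pos_at_place _ w).ne'
    simp only [toMul_add, Units.val_mul, map_mul, Pi.add_apply]
    rw [Real.log_mul hx hy, mul_add]

@[simp]
theorem logFull_apply (x : (𝓞 K)ˣ) (w : InfinitePlace K) :
    logFull K (Additive.ofMul x) w = mult w * Real.log (w (x : K)) := rfl

/-- The image lies in the hyperplane `Σ = 0`. -/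
theorem sum_logFull (x : Additive (𝓞 K)ˣ) : ∑ w, logFull K x w = 0 :=
  sum_mult_mul_log (Additive.toMul x)

/-- Compatibility with Mathlib's `logEmbedding`. -/
theorem logFull_eq_logEmbedding (x : Additive (𝓞 K)ˣ) (w : {w : InfinitePlace K // w ≠ w₀}) :
    logFull K x w.1 = logEmbedding K x w := rfl

/-- The kernel of `logFull` is the torsion. -/
theorem logFull_eq_zero_iff {x : (𝓞 K)ˣ} :
    logFull K (Additive.ofMul x) = 0 ↔ x ∈ torsion K := by
  rw [mem_torsion]
  constructor
  · intro h w
    exact mult_log_place_eq_zero.mp (congrFun h w)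
  · intro h
    funext w
    rw [logFull_apply, h w, Real.log_one, mul_zero, Pi.zero_apply]

/-- The hyperplane `Σ = 0`. -/
noncomputable def hyper : Submodule ℝ (InfinitePlace K → ℝ) :=
  LinearMap.ker (∑ w : InfinitePlace K, LinearMap.proj (R := ℝ) (φ := fun _ => ℝ) w)

theorem mem_hyper {f : InfinitePlace K → ℝ} : f ∈ hyper K ↔ ∑ w, f w = 0 := by
  simp [hyper, LinearMap.sum_apply]

theorem logFull_mem_hyper (x : Additive (𝓞 K)ˣ) : logFull K x ∈ hyper K :=
  (mem_hyper K).2 (sum_logFull K x)

/-- Restriction to the places `≠ w₀`. -/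
noncomputable def restr : (InfinitePlace K → ℝ) →ₗ[ℝ] logSpace K where
  toFun f w := f w.1
  map_add' _ _ := rfl
  map_smul' _ _ := rfl

theorem restr_logFull (x : Additive (𝓞 K)ˣ) : restr K (logFull K x) = logEmbedding K x := rfl

open Classical in
/-- On the hyperplane, restriction to the places `≠ w₀` is injective. -/
theorem restr_injOn_hyper {f g : InfinitePlace K → ℝ} (hf : f ∈ hyper K) (hg : g ∈ hyper K)
    (h : restr K f = restr K g) : f = g := by
  have hw : ∀ w : InfinitePlace K, w ≠ w₀ → f w = g w := fun w hw =>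
    congrFun h ⟨w, hw⟩
  rw [mem_hyper] at hf hg
  rw [Fintype.sum_eq_add_sum_subtype_ne _ (w₀ : InfinitePlace K)] at hf hg
  have hsum : ∑ w : {w : InfinitePlace K // w ≠ w₀}, f w.1 =
      ∑ w : {w : InfinitePlace K // w ≠ w₀}, g w.1 :=
    Finset.sum_congr rfl fun w _ => hw w.1 w.2
  have h0 : f w₀ = g w₀ := by linarith
  funext w
  by_cases hw0 : w = w₀
  · rw [hw0, h0]
  · exact hw w hw0

/-- **Dirichlet, equivariant-friendly form**: the real span of the image of `logFull` is the
hyperplane `Σ = 0`. -/
theorem span_range_logFull :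
    Submodule.span ℝ (Set.range (logFull K)) = hyper K := by
  apply le_antisymm
  · rw [Submodule.span_le]
    rintro _ ⟨x, rfl⟩
    exact logFull_mem_hyper K x
  · intro f hf
    -- `restr f` lies in the span of the unit lattice = image of the span under `restr`
    have htop : restr K f ∈ Submodule.span ℝ ((unitLattice K : Set (logSpace K))) := by
      rw [unitLattice_span_eq_top]
      exact Submodule.mem_top
    have himg : (unitLattice K : Set (logSpace K)) = restr K '' Set.range (logFull K) := by
      ext y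
      constructor
      · intro hy
        obtain ⟨x, -, rfl⟩ := hy
        exact ⟨logFull K x, ⟨x, rfl⟩, rfl⟩
      · rintro ⟨_, ⟨x, rfl⟩, rfl⟩
        exact ⟨x, trivial, rfl⟩
    rw [himg, ← Submodule.map_span] at htop
    obtain ⟨g, hg, hgf⟩ := htop
    have hgH : g ∈ hyper K := by
      have : Submodule.span ℝ (Set.range (logFull K)) ≤ hyper K := by
        rw [Submodule.span_le]
        rintro _ ⟨x, rfl⟩
        exact logFull_mem_hyper K x
      exact this hg
    rw [← restr_injOn_hyper K hgH hf hgf]
    exact hg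

/-! ### Equivariance -/

variable {k : Type*} [Field k] [Algebra k K]

/-- The action of `σ : K ≃ₐ[k] K` on the unit group (`k` any base field, e.g. `ℚ`). -/
noncomputable def unitMap (σ : K ≃ₐ[k] K) : (𝓞 K)ˣ ≃* (𝓞 K)ˣ :=
  Units.mapEquiv (RingOfIntegers.mapRingEquiv σ.toRingEquiv).toMulEquiv

theorem coe_unitMap (σ : K ≃ₐ[k] K) (u : (𝓞 K)ˣ) :
    algebraMap (𝓞 K) K ((unitMap K σ u : (𝓞 K)ˣ) : 𝓞 K) = σ (algebraMap (𝓞 K) K (u : 𝓞 K)) := rfl

theorem mult_smul (σ : K ≃ₐ[k] K) (w : InfinitePlace K) : mult (σ • w) = mult w := by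
  classical
  simp only [mult, isReal_smul_iff]

/-- **Equivariance of the full log map.** -/
theorem logFull_unitMap (σ : K ≃ₐ[k] K) (u : (𝓞 K)ˣ) (w : InfinitePlace K) :
    logFull K (Additive.ofMul (unitMap K σ u)) w = logFull K (Additive.ofMul u) (σ⁻¹ • w) := by
  rw [logFull_apply, logFull_apply, mult_smul, coe_unitMap, InfinitePlace.smul_apply]
  rfl

end Fermat.Agent.GP.GW.EqUnits
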