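/-
GATE-P / S56 [P-GW] leaf S56-GW-EQUNITS (helper41), file E4 (main).

**The equivariant Dirichlet unit theorem (Herbrand), rational form.**

`K` a number field, `Λ = (𝓞 K)ˣ / torsion` (additively).  There is an INJECTIVE additive map
`F : Λ × ℤ → (InfinitePlace K → ℚ)` which is equivariant for every `σ : K ≃ₐ[k] K`
(`k` any base field, e.g. `ℚ`)
(`σ` acts on `Λ` through its action on units, trivially on `ℤ`, and on functions on the places by
`(σ f)(w) = f (σ⁻¹ • w)`).  As both sides have `ℤ`-rank `#InfinitePlace K`, this says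
`ℚ ⊗ Λ ⊕ ℚ ≅ ℚ[InfinitePlace K]` as `ℚ[Aut K]`-modules, and that `Λ ⊕ ℤ` and `ℤ[InfinitePlace K]`
are commensurable `Aut K`-lattices (so their reductions mod `p` have the same class in `G_0`).

Mathlib only.
-/
import Fermat.Agent.GP.GW.EqUnits.LogFull
import Fermat.Agent.GP.GW.EqUnits.Descent

set_option autoImplicit false
set_option linter.unusedSectionVars false

open NumberField NumberField.InfinitePlace NumberField.Units Module
open NumberField.Units.dirichletUnitTheorem

namespace Fermat.Agent.GP.GW.EqUnits

variable (K : Type*) [Field K] [NumberField K]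

/-- The unit lattice `(𝓞 K)ˣ / torsion`, written additively. -/
abbrev UnitLat : Type _ := Additive ((𝓞 K)ˣ ⧸ (torsion K))

/-- Explicit instance (instance search through `Units.instCommGroupUnits` fails when nested). -/
noncomputable instance instAddCommGroupUnitLat : AddCommGroup (UnitLat K) :=
  inferInstanceAs (AddCommGroup (Additive ((𝓞 K)ˣ ⧸ torsion K)))

/-- `logFull` on the quotient by torsion. -/
noncomputable def logQuot : UnitLat K →+ (InfinitePlace K → ℝ) :=
  MonoidHom.toAdditiveLeft <|
    QuotientGroup.lift (torsion K) (AddMonoidHom.toMultiplicativeRight (logFull K)) (by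
      intro x hx
      rw [MonoidHom.mem_ker, AddMonoidHom.toMultiplicativeRight_apply_apply, ofAdd_eq_one]
      exact (logFull_eq_zero_iff K).2 hx)

@[simp]
theorem logQuot_mk (x : (𝓞 K)ˣ) :
    logQuot K (Additive.ofMul (QuotientGroup.mk x)) = logFull K (Additive.ofMul x) := rfl

theorem logQuot_mem_hyper (x : UnitLat K) : logQuot K x ∈ hyper K := by
  induction x using Additive.rec with
  | ofMul x =>
    induction x using QuotientGroup.induction_on with
    | H x => exact logFull_mem_hyper K _

theorem range_logQuot : Set.range (logQuot K) = Set.range (logFull K) := by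
  ext y
  constructor
  · rintro ⟨x, rfl⟩
    induction x using Additive.rec with
    | ofMul x =>
      induction x using QuotientGroup.induction_on with
      | H x => exact ⟨Additive.ofMul x, rfl⟩
  · rintro ⟨x, rfl⟩
    exact ⟨Additive.ofMul (QuotientGroup.mk (Additive.toMul x)), rfl⟩

/-- The real lattice map `Λ × ℤ → ℝ^{places}`, `(x, c) ↦ logQuot x + c·𝟙`. -/
noncomputable def realMap : UnitLat K × ℤ →+ (InfinitePlace K → ℝ) :=
  (logQuot K).coprod ((zmultiplesHom (InfinitePlace K → ℝ)) (fun _ => 1))

theorem realMap_apply (x : UnitLat K) (c : ℤ) (w : InfinitePlace K) :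
    realMap K (x, c) w = logQuot K x w + (c : ℝ) := by
  simp [realMap]

/-- The image of `realMap` spans everything. -/
theorem span_range_realMap : Submodule.span ℝ (Set.range (realMap K)) = ⊤ := by
  classical
  rw [eq_top_iff]
  intro f _
  -- decompose `f = (f - avg) + avg`
  set n : ℝ := (Fintype.card (InfinitePlace K) : ℝ) with hn
  have hn0 : n ≠ 0 := by
    rw [hn]
    exact_mod_cast Fintype.card_ne_zero
  set a : ℝ := (∑ w, f w) / n with ha
  have hmem1 : (fun _ => (1 : ℝ)) ∈ Submodule.span ℝ (Set.range (realMap K)) := by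
    refine Submodule.subset_span ⟨(0, 1), ?_⟩
    funext w
    rw [realMap_apply]
    simp
  have hmem2 : (f - fun _ => a) ∈ Submodule.span ℝ (Set.range (realMap K)) := by
    have hH : (f - fun _ => a) ∈ hyper K := by
      rw [mem_hyper]
      simp only [Pi.sub_apply, Finset.sum_sub_distrib, Finset.sum_const, Finset.card_univ,
        nsmul_eq_mul]
      rw [ha, ← hn]
      field_simp
      ring
    rw [← span_range_logFull, ← range_logQuot] at hH
    refine Submodule.span_mono ?_ hH
    rintro _ ⟨x, rfl⟩
    refine ⟨(x, 0), ?_⟩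
    funext w
    rw [realMap_apply]
    simp
  have : f = (f - fun _ => a) + a • (fun _ => (1 : ℝ)) := by
    funext w
    simp
  rw [this]
  exact Submodule.add_mem _ hmem2 (Submodule.smul_mem _ _ hmem1)

theorem finrank_unitLat_prod :
    finrank ℤ (UnitLat K × ℤ) = Fintype.card (InfinitePlace K) := by
  rw [Module.finrank_prod, finrank_modTorsion, Module.finrank_self, Units.rank]
  have : 0 < Fintype.card (InfinitePlace K) := Fintype.card_pos
  omega

/-! ### The Galois action -/

variable {k : Type*} [Field k] [Algebra k K]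

theorem unitMap_mem_torsion (σ : K ≃ₐ[k] K) {u : (𝓞 K)ˣ} (hu : u ∈ torsion K) :
    unitMap K σ u ∈ torsion K := by
  rw [torsion, CommGroup.mem_torsion] at hu ⊢
  exact (unitMap K σ).toMonoidHom.isOfFinOrder hu

/-- The action of `σ` on `(𝓞 K)ˣ / torsion`. -/
noncomputable def unitQuotMap (σ : K ≃ₐ[k] K) :
    (𝓞 K)ˣ ⧸ (torsion K) →* (𝓞 K)ˣ ⧸ (torsion K) :=
  QuotientGroup.map (torsion K) (torsion K) (unitMap K σ).toMonoidHom
    (fun _ hu => unitMap_mem_torsion K σ hu)

/-- The action of `σ` on the unit lattice (additive form). -/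
noncomputable def latMap (σ : K ≃ₐ[k] K) : UnitLat K →+ UnitLat K :=
  MonoidHom.toAdditive (unitQuotMap K σ)

@[simp]
theorem latMap_mk (σ : K ≃ₐ[k] K) (u : (𝓞 K)ˣ) :
    latMap K σ (Additive.ofMul (QuotientGroup.mk u)) =
      Additive.ofMul (QuotientGroup.mk (unitMap K σ u)) := rfl

/-- Equivariance of `logQuot`. -/
theorem logQuot_latMap (σ : K ≃ₐ[k] K) (x : UnitLat K) (w : InfinitePlace K) :
    logQuot K (latMap K σ x) w = logQuot K x (σ⁻¹ • w) := by
  induction x using Additive.rec with
  | ofMul x =>
    induction x using QuotientGroup.induction_on with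
    | H u =>
      rw [latMap_mk, logQuot_mk, logQuot_mk]
      exact logFull_unitMap K σ u w

/-- Equivariance of `realMap`. -/
theorem realMap_latMap (σ : K ≃ₐ[k] K) (x : UnitLat K) (c : ℤ) (w : InfinitePlace K) :
    realMap K (latMap K σ x, c) w = realMap K (x, c) (σ⁻¹ • w) := by
  rw [realMap_apply, realMap_apply, logQuot_latMap]

/-- **Equivariant Dirichlet unit theorem, rational form.**  An injective additive map
`F : Λ × ℤ → (InfinitePlace K → ℚ)`, equivariant under every automorphism of `K` (over any base
field `k`, explicit argument). -/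
theorem exists_equivariant_rat_embedding (k : Type*) [Field k] [Algebra k K] :
    ∃ F : UnitLat K × ℤ →+ (InfinitePlace K → ℚ), Function.Injective F ∧
      ∀ (σ : K ≃ₐ[k] K) (x : UnitLat K) (c : ℤ) (w : InfinitePlace K),
        F (latMap K σ x, c) w = F (x, c) (σ⁻¹ • w) := by
  classical
  obtain ⟨ℓ, hℓ⟩ := exists_rat_functional_injective (realMap K) (finrank_unitLat_prod K)
    (span_range_realMap K)
  refine ⟨{ toFun := fun x w => ℓ (realMap K x w)
            map_zero' := by funext w; simp
            map_add' := fun x y => by funext w; simp }, hℓ, ?_⟩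
  intro σ x c w
  show ℓ (realMap K (latMap K σ x, c) w) = ℓ (realMap K (x, c) (σ⁻¹ • w))
  rw [realMap_latMap]

end Fermat.Agent.GP.GW.EqUnits
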