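/-
GATE-P / S56 [P-GW] leaf S56-GW-EQUNITS (helper41), file E5: the CHARPOLY FORM of the equivariant
Dirichlet unit theorem (= the unit input (R4) of helper59's E3 route, board 4002).

`K` a number field, `Λ = (𝓞 K)ˣ / torsion`, `σ : K ≃ₐ[k] K` (`k` any base field).  Then, in `ℤ[X]`,

  `charpoly (σ | Λ) * (X - 1) = charpoly (σ | ℤ[InfinitePlace K])`,

where `σ` acts on `ℤ[InfinitePlace K] = (InfinitePlace K → ℤ)` by `(σ f)(w) = f (σ⁻¹ • w)`
(`charpoly_latMap_mul`), and the same identity after base change to any commutative ring `R`, e.g.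
`ZMod p` (`charpoly_latMap_mul_map`).

General tools (Mathlib only, no number fields):
* `charpoly_map_eq_of_injective` : an injective additive map from a free f.g. `ℤ`-module into a
  `ℚ`-space of the same rank transports characteristic polynomials;
* `charpoly_funLeft_eq_map` : the charpoly of a "substitution" operator `g ↦ g ∘ f` on `ι → R` is
  the base change of the one over `ℤ`.

Mathlib only.
-/
import Fermat.Agent.GP.GW.EqUnits.Main

set_option autoImplicit false
set_option linter.unusedSectionVars false

open NumberField NumberField.InfinitePlace NumberField.Units Module Polynomial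

namespace Fermat.Agent.GP.GW.EqUnits

/-! ### General tools -/

/-- **Charpoly of a lattice endomorphism is read off rationally.**  `L` a free f.g. `ℤ`-module,
`V` a f.d. `ℚ`-space of the same rank, `F : L → V` additive and injective, `A` an endomorphism of
`L`, `P` an endomorphism of `V` with `F ∘ A = P ∘ F`: then `charpoly A = charpoly P` (in `ℚ[X]`). -/
theorem charpoly_map_eq_of_injective {L V : Type*} [AddCommGroup L] [Module.Free ℤ L]
    [Module.Finite ℤ L] [AddCommGroup V] [Module ℚ V] [FiniteDimensional ℚ V]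
    (F : L →+ V) (hF : Function.Injective F) (hrk : finrank ℤ L = finrank ℚ V)
    (A : L →ₗ[ℤ] L) (P : V →ₗ[ℚ] V) (hAP : ∀ x, F (A x) = P (F x)) :
    A.charpoly.map (Int.castRingHom ℚ) = P.charpoly := by
  classical
  set ι := Module.Free.ChooseBasisIndex ℤ L
  let b : Basis ι ℤ L := Module.Free.chooseBasis ℤ L
  let Fl : L →ₗ[ℤ] V := F.toIntLinearMap
  have hv : LinearIndependent ℤ (Fl ∘ b) :=
    b.linearIndependent.map' Fl (LinearMap.ker_eq_bot.2 hF)
  have hvQ : LinearIndependent ℚ (Fl ∘ b) := (LinearIndependent.iff_fractionRing ℤ ℚ).1 hv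
  have hcard : Fintype.card ι = finrank ℚ V := by
    rw [← hrk, Module.finrank_eq_card_chooseBasisIndex]
  let bV : Basis ι ℚ V := basisOfLinearIndependentOfCardEqFinrank' _ hvQ hcard
  have hbV : ∀ i, bV i = F (b i) := fun i => by
    simp [bV, Fl]
  have hmat : LinearMap.toMatrix bV bV P = (LinearMap.toMatrix b b A).map (Int.castRingHom ℚ) := by
    ext i j
    rw [LinearMap.toMatrix_apply, Matrix.map_apply, LinearMap.toMatrix_apply, hbV, ← hAP]
    have hsum : A (b j) = ∑ i, (b.repr (A (b j)) i) • b i := (b.sum_repr _).symm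
    have : F (A (b j)) = ∑ i, ((b.repr (A (b j)) i : ℤ) : ℚ) • bV i := by
      conv_lhs => rw [hsum]
      rw [map_sum]
      refine Finset.sum_congr rfl fun i _ => ?_
      rw [map_zsmul, hbV, Int.cast_smul_eq_zsmul]
    rw [this, map_sum]
    simp [Finsupp.single_apply]
  rw [← LinearMap.charpoly_toMatrix P bV, ← LinearMap.charpoly_toMatrix A b, hmat,
    Matrix.charpoly_map]

/-- The matrix of the substitution operator `g ↦ g ∘ f` on `ι → R` in the standard basis. -/
theorem toMatrix'_funLeft {ι : Type*} [Fintype ι] [DecidableEq ι] (R : Type*) [CommRing R]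
    (f : ι → ι) :
    LinearMap.toMatrix' (LinearMap.funLeft R R f) =
      Matrix.of fun i j => if f i = j then (1 : R) else 0 := by
  ext i j
  rw [LinearMap.toMatrix'_apply, LinearMap.funLeft_apply, Matrix.of_apply, Pi.single_apply]

/-- The charpoly of the substitution operator `g ↦ g ∘ f` on `ι → R` is the base change of the
one on `ι → ℤ`. -/
theorem charpoly_funLeft_eq_map {ι : Type*} [Fintype ι] [DecidableEq ι] (R : Type*) [CommRing R]
    (f : ι → ι) :
    (LinearMap.funLeft R R f).charpoly =
      ((LinearMap.funLeft ℤ ℤ f).charpoly).map (Int.castRingHom R) := by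
  rw [← LinearMap.charpoly_toMatrix (LinearMap.funLeft R R f) (Pi.basisFun R ι),
    ← LinearMap.charpoly_toMatrix (LinearMap.funLeft ℤ ℤ f) (Pi.basisFun ℤ ι),
    LinearMap.toMatrix_eq_toMatrix', LinearMap.toMatrix_eq_toMatrix', toMatrix'_funLeft,
    toMatrix'_funLeft, ← Matrix.charpoly_map]
  congr 1
  ext i j
  simp only [Matrix.map_apply, Matrix.of_apply]
  split_ifs <;> simp

/-! ### The unit lattice -/

variable (K : Type*) [Field K] [NumberField K] {k : Type*} [Field k] [Algebra k K]

/-- **Equivariant Dirichlet unit theorem, charpoly form** (in `ℤ[X]`):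
`charpoly (σ | 𝓞ˣ/torsion) * (X - 1) = charpoly (σ | ℤ[InfinitePlace K])`. -/
theorem charpoly_latMap_mul (σ : K ≃ₐ[k] K) :
    (latMap K σ).toIntLinearMap.charpoly * (X - 1) =
      (LinearMap.funLeft ℤ ℤ (fun w : InfinitePlace K => σ⁻¹ • w)).charpoly := by
  classical
  obtain ⟨F, hF, hEq⟩ := exists_equivariant_rat_embedding K k
  have hinj : Function.Injective (Polynomial.map (Int.castRingHom ℚ)) :=
    Polynomial.map_injective _ Int.cast_injective
  apply hinj
  have h1 : ((latMap K σ).toIntLinearMap.prodMap (LinearMap.id : ℤ →ₗ[ℤ] ℤ)).charpoly.map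
      (Int.castRingHom ℚ) =
      (LinearMap.funLeft ℚ ℚ (fun w : InfinitePlace K => σ⁻¹ • w)).charpoly := by
    refine charpoly_map_eq_of_injective F hF ?_ _ _ ?_
    · rw [finrank_unitLat_prod, Module.finrank_fintype_fun_eq_card]
    · rintro ⟨x, c⟩
      funext w
      exact hEq σ x c w
  rw [LinearMap.charpoly_prodMap] at h1
  have h2 : (LinearMap.id : ℤ →ₗ[ℤ] ℤ).charpoly = X - 1 := by
    have := LinearMap.charpoly_one (R := ℤ) (M := ℤ)
    rw [Module.finrank_self, pow_one] at this
    exact this
  rw [h2] at h1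
  rw [h1, charpoly_funLeft_eq_map ℚ]

/-- The same identity after base change to a commutative ring `R` (e.g. `ZMod p`). -/
theorem charpoly_latMap_mul_map (R : Type*) [CommRing R] (σ : K ≃ₐ[k] K) :
    ((latMap K σ).toIntLinearMap.charpoly.map (Int.castRingHom R)) * (X - 1) =
      (LinearMap.funLeft R R (fun w : InfinitePlace K => σ⁻¹ • w)).charpoly := by
  classical
  rw [charpoly_funLeft_eq_map R, ← charpoly_latMap_mul K σ]
  simp

end Fermat.Agent.GP.GW.EqUnits
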